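/-
ES-LR (Lemma R of NOTES/ES-plan.md), abstract core (helper15).

`A` a valuation subring of a field `L` with the archimedean property `Arch A` (rank one).

* `kronInt_of_almost` : `A((q))` is completely integrally closed in `L((q))`:
  `Y ≠ 0`, `Y · z ^ n` integral for all `n`  ⟹  `z` integral.
* `kronInt_of_monic` : `z · Y₂ = Y₁` (`Y₁, Y₂` integral, `Y₂ ≠ 0`) and `z` a root of a monic polynomial
  with integral coefficients  ⟹  `z` integral.
* `kronInt_of_bounded` (Gauss): `c ≠ 0`, `c · x` integral, `x · Y₂ = Y₁` with `Y₁` integral and `Y₂`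
  primitive  ⟹  `x` integral.
-/
import Fermat.Agent.ES.Kronecker

set_option autoImplicit false
set_option linter.style.haveILetI false

noncomputable section

namespace Fermat.Agent.ES.LR

open Fermat.Agent.ES ModularCurve Polynomial

variable {L : Type*} [Field L] (A : ValuationSubring L)

/-- the subring of `A`-integral Laurent series -/
def intSub : Subring (LaurentSeries L) := (kronIncl A).range

variable {A}

theorem mem_intSub {f : LaurentSeries L} : f ∈ intSub A ↔ KronInt A f := by
  rw [kronInt_iff]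
  rfl

theorem kronInt_C {a : L} (ha : a ∈ A) : KronInt A (HahnSeries.C a : LaurentSeries L) := by
  intro n
  rw [HahnSeries.C_apply, HahnSeries.coeff_single]
  split_ifs
  · exact ha
  · exact A.zero_mem

variable (A)

/-- the archimedean property of the valuation of `A` (rank at most one) -/
def Arch : Prop := ∀ δ c : L, δ ∈ A.nonunits → c ≠ 0 → ∃ k : ℕ, δ ^ k / c ∈ A

variable {A}

/-- `A((q))` is completely integrally closed in `L((q))`. -/
theorem kronInt_of_almost (hA : Arch A) {z Y : LaurentSeries L} (hY : Y ≠ 0)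
    (h : ∀ n : ℕ, KronInt A (Y * z ^ n)) : KronInt A z := by
  classical
  by_contra hz
  have hex : ∃ n : ℤ, z.coeff n ∉ A := by
    by_contra hcon
    push Not at hcon
    exact hz hcon
  have hwf : {n : ℤ | z.coeff n ∉ A}.IsWF := z.isWF_support.mono (fun n hn => by
    rw [HahnSeries.mem_support]
    intro h0
    exact hn (by rw [h0]; exact A.zero_mem))
  obtain ⟨n₁, hn₁, hmin⟩ : ∃ n₁ : ℤ, z.coeff n₁ ∉ A ∧ ∀ m < n₁, z.coeff m ∈ A := by
    refine ⟨hwf.min hex, hwf.min_mem hex, fun m hm => ?_⟩
    by_contra hcon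
    exact absurd (hwf.min_le hex hcon) (not_le.2 hm)
  set zl : LaurentSeries L := HahnSeries.truncLT n₁ z with hzl_def
  have hzl : KronInt A zl := fun n => by
    rw [hzl_def, HahnSeries.coeff_truncLT]
    split_ifs with h
    · exact hmin n h
    · exact A.zero_mem
  set w : LaurentSeries L := z - zl with hw_def
  have hwcoeff : ∀ n, w.coeff n = if n < n₁ then 0 else z.coeff n := by
    intro n
    rw [hw_def, HahnSeries.coeff_sub, hzl_def, HahnSeries.coeff_truncLT]
    split_ifs <;> simp
  have hu0 : z.coeff n₁ ≠ 0 := fun h0 => hn₁ (h0 ▸ A.zero_mem)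
  have hwn₁ : w.coeff n₁ = z.coeff n₁ := by rw [hwcoeff, if_neg (lt_irrefl _)]
  have hw0 : w ≠ 0 := by
    intro h0
    rw [h0, HahnSeries.coeff_zero] at hwn₁
    exact hu0 hwn₁.symm
  have hword : w.order = n₁ := by
    apply le_antisymm
    · exact HahnSeries.order_le_of_coeff_ne_zero (by rw [hwn₁]; exact hu0)
    · rw [HahnSeries.le_order_iff_forall hw0]
      intro m hm
      rw [hwcoeff, if_pos hm]
  have hwlead : w.leadingCoeff = z.coeff n₁ := by
    rw [HahnSeries.leadingCoeff_eq, hword, hwn₁]
  -- almost integrality of `w`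
  have hw : ∀ n : ℕ, KronInt A (Y * w ^ n) := by
    intro n
    rw [← mem_intSub]
    have : Y * w ^ n = ∑ m ∈ Finset.range (n + 1),
        (Y * z ^ m) * ((-zl) ^ (n - m) * (n.choose m : LaurentSeries L)) := by
      rw [show w = z + (-zl) by rw [hw_def]; ring, add_pow, Finset.mul_sum]
      refine Finset.sum_congr rfl fun m _ => by ring
    rw [this]
    refine Subring.sum_mem _ fun m _ => Subring.mul_mem _ (mem_intSub.2 (h m))
      (Subring.mul_mem _ (Subring.pow_mem _ (Subring.neg_mem _ (mem_intSub.2 hzl)) _)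
        (natCast_mem _ _))
  -- leading coefficients
  have hleadpow : ∀ n : ℕ, (w ^ n).leadingCoeff = z.coeff n₁ ^ n := by
    intro n
    induction n with
    | zero => rw [pow_zero, pow_zero, HahnSeries.leadingCoeff_one]
    | succ n ih => rw [pow_succ, HahnSeries.leadingCoeff_mul, ih, hwlead, pow_succ]
  have hlead : ∀ n : ℕ, Y.leadingCoeff * z.coeff n₁ ^ n ∈ A := by
    intro n
    have h1 := hw n (Y * w ^ n).order
    rwa [← HahnSeries.leadingCoeff_eq, HahnSeries.leadingCoeff_mul, hleadpow] at h1
  have hy0 : Y.leadingCoeff ≠ 0 := HahnSeries.leadingCoeff_ne_zero.2 hY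
  have hinv : (z.coeff n₁)⁻¹ ∈ A.nonunits := by
    rw [ValuationSubring.mem_nonunits_iff, map_inv₀]
    have h1 : ¬ A.valuation (z.coeff n₁) ≤ 1 := fun h1 =>
      hn₁ ((ValuationSubring.valuation_le_one_iff A _).1 h1)
    exact inv_lt_one_of_one_lt₀ (not_le.1 h1)
  obtain ⟨k, hk⟩ := hA _ _ hinv hy0
  have h2 := A.mul_mem _ _ hk (hlead (k + 1))
  have h3 : (z.coeff n₁)⁻¹ ^ k / Y.leadingCoeff * (Y.leadingCoeff * z.coeff n₁ ^ (k + 1)) =
      z.coeff n₁ := by
    rw [inv_pow, pow_succ]
    field_simp
  rw [h3] at h2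
  exact hn₁ h2

/-- `A((q))` is integrally closed in its fraction field (inside `L((q))`). -/
theorem kronInt_of_monic (hA : Arch A) {z Y₁ Y₂ : LaurentSeries L} (hY₁ : KronInt A Y₁)
    (hY₂ : KronInt A Y₂) (hY₂0 : Y₂ ≠ 0) (hfrac : z * Y₂ = Y₁)
    (p : (LaurentSeries L)[X]) (hp : p.Monic) (hpc : ∀ n, KronInt A (p.coeff n))
    (hz : p.eval z = 0) : KronInt A z := by
  have hint : IsIntegral (intSub A) z := by
    have hsub : (↑p.coeffs : Set (LaurentSeries L)) ⊆ intSub A := by
      intro c hc
      obtain ⟨n, _, rfl⟩ := Polynomial.mem_coeffs_iff.1 hc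
      exact mem_intSub.2 (hpc n)
    refine ⟨p.toSubring (intSub A) hsub, (monic_toSubring p _ hsub).2 hp, ?_⟩
    rw [← Polynomial.eval_map]
    rw [show algebraMap (intSub A) (LaurentSeries L) = (intSub A).subtype from rfl, map_toSubring]
    exact hz
  set d := (minpoly (intSub A) z).natDegree with hd
  apply kronInt_of_almost hA (pow_ne_zero d hY₂0)
  intro n
  rw [← mem_intSub]
  have hmem := hint.mem_span_pow (y := z ^ n) ⟨X ^ n, by simp⟩
  refine Submodule.span_induction (p := fun y _ => Y₂ ^ d * y ∈ intSub A) ?_ ?_ ?_ ?_ hmem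
  · rintro _ ⟨i, rfl⟩
    have hi : (i : ℕ) ≤ d := i.2.le
    have : Y₂ ^ d * z ^ (i : ℕ) = Y₂ ^ (d - i) * Y₁ ^ (i : ℕ) := by
      rw [← hfrac, mul_pow]
      conv_lhs => rw [← Nat.sub_add_cancel hi, pow_add]
      ring
    rw [this]
    exact Subring.mul_mem _ (Subring.pow_mem _ (mem_intSub.2 hY₂) _)
      (Subring.pow_mem _ (mem_intSub.2 hY₁) _)
  · rw [mul_zero]
    exact Subring.zero_mem _
  · intro x y _ _ hx hy
    rw [mul_add]
    exact Subring.add_mem _ hx hy
  · intro r x _ hx
    rw [Algebra.smul_def, ← mul_assoc, mul_comm (Y₂ ^ d), mul_assoc]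
    exact Subring.mul_mem _ r.2 hx

/-! ### The Gauss step -/

/-- reduction of Laurent series is surjective -/
theorem exists_kronRed_eq (V : LaurentSeries (IsLocalRing.ResidueField A)) :
    ∃ W : LaurentSeries A, kronRed A W = V := by
  classical
  have hsurj := IsLocalRing.residue_surjective (R := A)
  refine ⟨⟨fun n => if V.coeff n = 0 then 0 else Classical.choose (hsurj (V.coeff n)),
    V.isPWO_support.mono ?_⟩, ?_⟩
  · intro n hn
    simp only [Function.mem_support, ne_eq] at hn
    rw [HahnSeries.mem_support]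
    intro h0
    exact hn (if_pos h0)
  · ext n
    rw [coeffMap_coeff]
    show IsLocalRing.residue A (if V.coeff n = 0 then 0 else _) = _
    split_ifs with h0
    · rw [map_zero, h0]
    · exact Classical.choose_spec (hsurj (V.coeff n))

/-- a series with coefficients in the maximal ideal and finitely many nonzero coefficients, all in
negative degrees, is nilpotent modulo any nonzero constant -/
theorem mem_radical_of_neg (hA : Arch A) {c : A} (hc : c ≠ 0) :
    ∀ (K : ℕ) (f : LaurentSeries A), (∀ n, f.coeff n ∈ IsLocalRing.maximalIdeal A) →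
      (∀ n : ℤ, 0 ≤ n → f.coeff n = 0) → (∀ n : ℤ, n < -(K : ℤ) → f.coeff n = 0) →
        f ∈ (Ideal.span {(HahnSeries.C c : LaurentSeries A)}).radical := by
  intro K
  induction K with
  | zero =>
    intro f _ h0 h1
    have : f = 0 := by
      refine HahnSeries.ext (funext fun n => ?_)
      rw [HahnSeries.coeff_zero]
      rcases lt_or_ge n 0 with h | h
      · exact h1 n (by simpa using h)
      · exact h0 n h
    rw [this]
    exact Ideal.zero_mem _
  | succ K ih =>
    intro f hf h0 h1
    set e : A := f.coeff (-((K : ℤ) + 1)) with he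
    set g : LaurentSeries A := f - HahnSeries.single (-((K : ℤ) + 1)) e with hg
    have hgcoeff : ∀ n, g.coeff n = if n = -((K : ℤ) + 1) then 0 else f.coeff n := by
      intro n
      rw [hg, HahnSeries.coeff_sub, HahnSeries.coeff_single]
      split_ifs with h
      · rw [h, sub_self]
      · rw [sub_zero]
    have hgmem : g ∈ (Ideal.span {(HahnSeries.C c : LaurentSeries A)}).radical := by
      apply ih g
      · intro n
        rw [hgcoeff]
        split_ifs
        · exact Ideal.zero_mem _
        · exact hf n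
      · intro n hn
        rw [hgcoeff]
        split_ifs
        · rfl
        · exact h0 n hn
      · intro n hn
        rw [hgcoeff]
        split_ifs with h
        · rfl
        · apply h1 n
          push_cast
          omega
    have hemem : (HahnSeries.C e : LaurentSeries A) ∈
        (Ideal.span {(HahnSeries.C c : LaurentSeries A)}).radical := by
      have hem : e ∈ IsLocalRing.maximalIdeal A := hf _
      have he' : (e : L) ∈ A.nonunits := by
        rw [ValuationSubring.coe_mem_nonunits_iff]
        exact hem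
      have hc' : (c : L) ≠ 0 := fun h => hc (Subtype.ext h)
      obtain ⟨k, hk⟩ := hA _ _ he' hc'
      refine ⟨k, ?_⟩
      rw [Ideal.mem_span_singleton']
      refine ⟨HahnSeries.C ⟨_, hk⟩, ?_⟩
      rw [← map_mul, ← map_pow]
      congr 1
      apply Subtype.ext
      push_cast
      field_simp
    have hsingle : (HahnSeries.single (-((K : ℤ) + 1)) e : LaurentSeries A) =
        HahnSeries.single (-((K : ℤ) + 1)) 1 * HahnSeries.C e := by
      rw [HahnSeries.C_apply, HahnSeries.single_mul_single, add_zero, one_mul]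
    have hf' : f = g + HahnSeries.single (-((K : ℤ) + 1)) e := by
      rw [hg]; ring
    rw [hf', hsingle]
    exact Ideal.add_mem _ hgmem (Ideal.mul_mem_left _ _ hemem)

/-- a primitive series is a unit modulo any nonzero constant -/
theorem exists_approx_inv (hA : Arch A) {c : A} (hc : c ≠ 0) {Y : LaurentSeries A}
    (hY : kronRed A Y ≠ 0) :
    ∃ W T : LaurentSeries A, Y * W = 1 + HahnSeries.C c * T := by
  classical
  obtain ⟨V, hV⟩ := exists_kronRed_eq (A := A) (kronRed A Y)⁻¹
  set E : LaurentSeries A := Y * V - 1 with hE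
  have hEred : kronRed A E = 0 := by
    rw [hE, map_sub, map_mul, hV, mul_inv_cancel₀ hY, map_one, sub_self]
  have hEm : ∀ n, E.coeff n ∈ IsLocalRing.maximalIdeal A := by
    intro n
    have h1 := congrArg (fun g : LaurentSeries (IsLocalRing.ResidueField A) => g.coeff n) hEred
    simp only [coeffMap_coeff, HahnSeries.coeff_zero] at h1
    exact (IsLocalRing.residue_eq_zero_iff _).1 h1
  set Em : LaurentSeries A := HahnSeries.truncLT 0 E with hEm_def
  set U : LaurentSeries A := 1 + (E - Em) with hU
  have hUneg : ∀ n : ℤ, n < 0 → U.coeff n = 0 := by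
    intro n hn
    rw [hU, HahnSeries.coeff_add, HahnSeries.coeff_sub, hEm_def, HahnSeries.coeff_truncLT,
      if_pos hn, HahnSeries.coeff_one, if_neg hn.ne, sub_self, add_zero]
  have hUzero : U.coeff 0 = 1 + E.coeff 0 := by
    rw [hU, HahnSeries.coeff_add, HahnSeries.coeff_sub, hEm_def, HahnSeries.coeff_truncLT,
      if_neg (lt_irrefl _), HahnSeries.coeff_one, if_pos rfl, sub_zero]
  have hunit0 : IsUnit (1 + E.coeff 0) := by
    rw [← IsLocalRing.residue_ne_zero_iff_isUnit, map_add, map_one,
      (IsLocalRing.residue_eq_zero_iff _).2 (hEm 0), add_zero]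
    exact one_ne_zero
  have hU0c : U.coeff 0 ≠ 0 := by
    rw [hUzero]
    exact hunit0.ne_zero
  have hU0 : U ≠ 0 := by
    intro h0
    rw [h0, HahnSeries.coeff_zero] at hU0c
    exact hU0c rfl
  have hUord : U.order = 0 := by
    apply le_antisymm
    · exact HahnSeries.order_le_of_coeff_ne_zero hU0c
    · rw [HahnSeries.le_order_iff_forall hU0]
      intro m hm
      exact hUneg m hm
  have hUunit : IsUnit U := by
    rw [HahnSeries.isUnit_iff, HahnSeries.leadingCoeff_eq, hUord, hUzero]
    exact hunit0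
  set J : Ideal (LaurentSeries A) := Ideal.span {(HahnSeries.C c : LaurentSeries A)} with hJ
  have hEmrad : Em ∈ J.radical := by
    apply mem_radical_of_neg hA hc (-E.order).toNat Em
    · intro n
      rw [hEm_def, HahnSeries.coeff_truncLT]
      split_ifs
      · exact hEm n
      · exact Ideal.zero_mem _
    · intro n hn
      rw [hEm_def, HahnSeries.coeff_truncLT, if_neg (not_lt.2 hn)]
    · intro n hn
      rw [hEm_def, HahnSeries.coeff_truncLT]
      split_ifs
      · apply HahnSeries.coeff_eq_zero_of_lt_order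
        have := Int.self_le_toNat (-E.order)
        omega
      · rfl
  have hnil : IsNilpotent (Ideal.Quotient.mk J Em) := by
    obtain ⟨k, hk⟩ := hEmrad
    exact ⟨k, by rw [← map_pow]; exact Ideal.Quotient.eq_zero_iff_mem.2 hk⟩
  have hYV : Y * V = U + Em := by
    rw [hU, hE]; ring
  have hunit : IsUnit (Ideal.Quotient.mk J (Y * V)) := by
    rw [hYV, map_add]
    have hcomm : Commute (Ideal.Quotient.mk J Em) (Ideal.Quotient.mk J U) :=
      (Commute.all Em U).map (Ideal.Quotient.mk J)
    exact hnil.isUnit_add_left_of_commute (hUunit.map _) hcomm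
  rw [map_mul] at hunit
  have hunitY : IsUnit (Ideal.Quotient.mk J Y) := by
    letI : CommMonoid (LaurentSeries A ⧸ J) := (Ideal.Quotient.commRing J).toCommMonoid
    exact isUnit_of_mul_isUnit_left hunit
  obtain ⟨w, hw⟩ := hunitY.exists_right_inv
  obtain ⟨W, rfl⟩ := Ideal.Quotient.mk_surjective w
  rw [← map_mul, ← map_one (Ideal.Quotient.mk J), Ideal.Quotient.eq, hJ,
    Ideal.mem_span_singleton'] at hw
  obtain ⟨T, hT⟩ := hw
  exact ⟨W, T, by rw [mul_comm (HahnSeries.C c), hT]; ring⟩

/-- **Gauss step**: bounded denominators + Gauss-integral (fraction form) ⟹ integral. -/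
theorem kronInt_of_bounded (hA : Arch A) {x Y₁ Y₂ : LaurentSeries L} {c : L} (hc : c ≠ 0)
    (hcx : KronInt A (HahnSeries.C c * x)) (hY₁ : KronInt A Y₁) (hY₂ : KronPrim A Y₂)
    (hfrac : x * Y₂ = Y₁) : KronInt A x := by
  by_cases hcA : c ∈ A
  · obtain ⟨Z, hZ⟩ := hcx.exists_lift
    obtain ⟨F₁, hF₁⟩ := hY₁.exists_lift
    obtain ⟨F₂, rfl⟩ := hY₂.1.exists_lift
    rw [kronPrim_kronIncl_iff] at hY₂
    have hc' : (⟨c, hcA⟩ : A) ≠ 0 := fun h => hc (congrArg Subtype.val h)
    obtain ⟨W, T, hWT⟩ := exists_approx_inv hA hc' hY₂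
    have hCc : kronIncl A (HahnSeries.C (⟨c, hcA⟩ : A)) = HahnSeries.C c := by
      rw [HahnSeries.C_apply, HahnSeries.C_apply, coeffMap_single]
      rfl
    have h1 := congrArg (kronIncl A) hWT
    rw [map_mul, map_add, map_one, map_mul, hCc] at h1
    have h2 : x = kronIncl A (F₁ * W - Z * T) := by
      rw [map_sub, map_mul, map_mul, hF₁, hZ, ← hfrac]
      linear_combination (-x) * h1
    rw [h2]
    exact kronInt_kronIncl _
  · have hinv : c⁻¹ ∈ A := (A.mem_or_inv_mem c).resolve_left hcA
    have h2 : x = HahnSeries.C c⁻¹ * (HahnSeries.C c * x) := by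
      rw [← mul_assoc, ← map_mul, inv_mul_cancel₀ hc, map_one, one_mul]
    rw [h2]
    exact (kronInt_C hinv).mul hcx

end Fermat.Agent.ES.LR
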