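/-
ES-LR, the archimedean property (helper15).

`arch_of_liesOver` : a valuation subring `A` of a field `L` algebraic over `ℚ`, lying over a prime
`ℓ`, has rank one:  for `δ ∈ 𝔪_A` and `c ≠ 0` some power `δ ^ k` is divisible by `c` in `A`.
-/
import Fermat.Agent.ES.LR.Core
import Fermat.Prelude.Def_FLTPrelim_Ramification
import Mathlib.RingTheory.Algebraic.Integral
import Mathlib.RingTheory.Localization.Integral
import Mathlib.FieldTheory.IsAlgClosed.AlgebraicClosure

set_option autoImplicit false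

noncomputable section

namespace Fermat.Agent.ES.LR

open Polynomial

variable {L : Type*} [Field L] (A : ValuationSubring L)

/-- integers lie in `A` -/
theorem arch_intCast_mem (n : ℤ) : (n : L) ∈ A := by
  exact intCast_mem A n

/-- integers prime to `ℓ` are units of `A` -/
theorem arch_val_eq_one {ℓ : ℕ} (hℓ : ℓ.Prime) (hA : A.LiesOverPrime ℓ) {u : ℤ}
    (hu : ¬ (ℓ : ℤ) ∣ u) : A.valuation (u : L) = 1 := by
  apply le_antisymm ((ValuationSubring.valuation_le_one_iff A _).2 (arch_intCast_mem A u))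
  by_contra hlt
  rw [not_le] at hlt
  have hcop : IsCoprime (ℓ : ℤ) u :=
    (Prime.coprime_iff_not_dvd (Nat.prime_iff_prime_int.1 hℓ)).2 hu
  obtain ⟨a, b, hab⟩ := hcop
  have h1 : (a : L) * (ℓ : L) + (b : L) * (u : L) = 1 := by
    have := congrArg (Int.cast : ℤ → L) hab
    push_cast at this
    exact this
  have hℓ' : A.valuation (ℓ : L) < 1 := (ValuationSubring.mem_nonunits_iff (A := A)).1 hA
  have h2 : A.valuation ((a : L) * (ℓ : L)) < 1 := by
    rw [map_mul]
    calc A.valuation (a : L) * A.valuation (ℓ : L) ≤ 1 * A.valuation (ℓ : L) :=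
          mul_le_mul' ((ValuationSubring.valuation_le_one_iff A _).2 (arch_intCast_mem A a)) le_rfl
      _ = A.valuation (ℓ : L) := one_mul _
      _ < 1 := hℓ'
  have h3 : A.valuation ((b : L) * (u : L)) < 1 := by
    rw [map_mul]
    calc A.valuation (b : L) * A.valuation (u : L) ≤ 1 * A.valuation (u : L) :=
          mul_le_mul' ((ValuationSubring.valuation_le_one_iff A _).2 (arch_intCast_mem A b)) le_rfl
      _ = A.valuation (u : L) := one_mul _
      _ < 1 := hlt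
  have h4 := Valuation.map_add_lt A.valuation h2 h3
  rw [h1, map_one] at h4
  exact lt_irrefl _ h4

/-- a nonzero integer has the valuation of a power of `ℓ` -/
theorem arch_val_int {ℓ : ℕ} (hℓ : ℓ.Prime) (hA : A.LiesOverPrime ℓ) {r : ℤ} (hr : r ≠ 0) :
    ∃ e : ℕ, A.valuation (r : L) = A.valuation (ℓ : L) ^ e := by
  obtain ⟨e, n', hn', hrn⟩ := Nat.exists_eq_pow_mul_and_not_dvd (Int.natAbs_ne_zero.2 hr) ℓ
    hℓ.ne_one
  refine ⟨e, ?_⟩
  have hu : ¬ (ℓ : ℤ) ∣ (n' : ℤ) := fun h => hn' (Int.natCast_dvd_natCast.1 h)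
  have h1 := arch_val_eq_one A hℓ hA hu
  have h2 : A.valuation (r : L) = A.valuation ((r.natAbs : ℤ) : L) := by
    rcases Int.natAbs_eq r with h | h
    · rw [← h]
    · conv_lhs => rw [h]
      rw [Int.cast_neg, Valuation.map_neg]
  rw [h2, hrn]
  push_cast
  rw [map_mul, map_pow]
  have h3 : A.valuation ((n' : ℤ) : L) = A.valuation (n' : L) := by push_cast; rfl
  rw [← h3, h1, mul_one]

/-- elements integral over `ℤ` lie in `A` -/
theorem arch_mem_of_isIntegral {x : L} (hx : IsIntegral ℤ x) : x ∈ A := by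
  have hx' : IsIntegral A x := hx.tower_top
  obtain ⟨y, hy⟩ := IsIntegrallyClosed.isIntegral_iff.mp hx'
  rw [← hy]
  exact y.2

/-- every nonzero algebraic element divides a power of `ℓ` up to `A` -/
theorem arch_pow_div_mem {ℓ : ℕ} (hℓ : ℓ.Prime) (hA : A.LiesOverPrime ℓ) {c : L} (_hc : c ≠ 0)
    (halg : IsAlgebraic ℤ c) : ∃ e : ℕ, (ℓ : L) ^ e / c ∈ A := by
  have halg' : IsAlgebraic ℤ c⁻¹ := halg.inv
  obtain ⟨y, hy0, hy⟩ := halg'.exists_integral_multiple
  have h1 := arch_mem_of_isIntegral A hy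
  obtain ⟨e, he⟩ := arch_val_int A hℓ hA hy0
  refine ⟨e, ?_⟩
  rw [← ValuationSubring.valuation_le_one_iff] at h1 ⊢
  rw [zsmul_eq_mul, map_mul, he] at h1
  rw [div_eq_mul_inv, map_mul, map_pow]
  exact h1

/-- every element of the maximal ideal has a power divisible by `ℓ` -/
theorem arch_pow_div_prime [CharZero L] {ℓ : ℕ} (hℓ : ℓ.Prime) (hA : A.LiesOverPrime ℓ) {δ : L}
    (hδ : δ ∈ A.nonunits) (halg : IsAlgebraic ℤ δ) : ∃ m : ℕ, δ ^ m / (ℓ : L) ∈ A := by
  classical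
  by_cases hδ0 : δ = 0
  · refine ⟨1, ?_⟩
    rw [hδ0, pow_one, zero_div]
    exact A.zero_mem
  obtain ⟨p, hp0, hp⟩ := halg
  have hq := aeval_primPart_eq_zero hp0 hp
  set q := p.primPart with hq_def
  have hprim : q.IsPrimitive := isPrimitive_primPart p
  have hex : ∃ i, ¬ (ℓ : ℤ) ∣ q.coeff i := by
    by_contra hcon
    push Not at hcon
    have h1 := hprim (ℓ : ℤ) ((C_dvd_iff_dvd_coeff _ _).2 hcon)
    rw [Int.isUnit_iff_natAbs_eq, Int.natAbs_natCast] at h1
    exact hℓ.ne_one h1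
  set i₀ := Nat.find hex with hi₀_def
  have hi₀ : ¬ (ℓ : ℤ) ∣ q.coeff i₀ := Nat.find_spec hex
  have hlt : ∀ i < i₀, (ℓ : ℤ) ∣ q.coeff i := fun i hi => by
    by_contra h
    exact Nat.find_min hex hi h
  set v := A.valuation with hv
  have hvδ : v δ < 1 := (ValuationSubring.mem_nonunits_iff (A := A)).1 hδ
  have hvδ0 : v δ ≠ 0 := (Valuation.ne_zero_iff _).2 hδ0
  have hvℓ0 : v (ℓ : L) ≠ 0 := (Valuation.ne_zero_iff _).2 (Nat.cast_ne_zero.2 hℓ.ne_zero)
  set t : ℕ → L := fun i => (q.coeff i : L) * δ ^ i with ht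
  have hsum : ∑ i ∈ Finset.range (q.natDegree + 1), t i = 0 := by
    rw [← hq, aeval_eq_sum_range]
    refine Finset.sum_congr rfl fun i _ => ?_
    rw [ht, zsmul_eq_mul]
  refine ⟨i₀, ?_⟩
  rw [← ValuationSubring.valuation_le_one_iff, map_div₀, map_pow]
  by_contra hcon
  rw [not_le] at hcon
  have hℓlt : v (ℓ : L) < v δ ^ i₀ := by
    have h1 := mul_lt_mul_of_pos_right hcon (zero_lt_iff.2 hvℓ0)
    rwa [one_mul, div_mul_cancel₀ _ hvℓ0] at h1
  have ht₀ : v (t i₀) = v δ ^ i₀ := by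
    rw [ht]
    simp only
    rw [map_mul, map_pow, arch_val_eq_one A hℓ hA hi₀, one_mul]
  have ht₀0 : v (t i₀) ≠ 0 := by
    rw [ht₀]
    exact pow_ne_zero _ hvδ0
  have hi₀mem : i₀ ∈ Finset.range (q.natDegree + 1) := by
    rw [Finset.mem_range, Nat.lt_succ_iff]
    apply le_natDegree_of_ne_zero
    intro h0
    exact hi₀ (h0 ▸ dvd_zero _)
  have hint : ∀ n : ℤ, v (n : L) ≤ 1 := fun n =>
    (ValuationSubring.valuation_le_one_iff A _).2 (arch_intCast_mem A n)
  have hother : ∀ i ∈ (Finset.range (q.natDegree + 1)).erase i₀, v (t i) < v (t i₀) := by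
    intro i hi
    rw [Finset.mem_erase] at hi
    rcases lt_or_gt_of_ne hi.1 with h | h
    · obtain ⟨b, hb⟩ := hlt i h
      have h1 : v (t i) ≤ v (ℓ : L) := by
        rw [ht]
        simp only
        rw [hb]
        push_cast
        rw [map_mul, map_mul, map_pow]
        calc v (ℓ : L) * v (b : L) * v δ ^ i ≤ v (ℓ : L) * 1 * 1 :=
              mul_le_mul' (mul_le_mul' le_rfl (hint b)) (pow_le_one₀ zero_le hvδ.le)
          _ = v (ℓ : L) := by rw [mul_one, mul_one]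
      exact lt_of_le_of_lt h1 (by rw [ht₀]; exact hℓlt)
    · have h1 : v (t i) ≤ v δ ^ i := by
        rw [ht]
        simp only
        rw [map_mul, map_pow]
        calc v (q.coeff i : L) * v δ ^ i ≤ 1 * v δ ^ i := mul_le_mul' (hint _) le_rfl
          _ = v δ ^ i := one_mul _
      refine lt_of_le_of_lt h1 ?_
      rw [ht₀]
      exact pow_lt_pow_right_of_lt_one₀ (zero_lt_iff.2 hvδ0) hvδ h
  have h1 := Valuation.map_sum_lt v ht₀0 hother
  rw [← Finset.add_sum_erase _ _ hi₀mem] at hsum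
  have h2 := Valuation.map_add_eq_of_lt_left v h1
  rw [hsum, map_zero] at h2
  exact ht₀0 h2.symm

/-- **rank one**: a valuation subring over `ℓ` of an algebraic extension of `ℚ` is archimedean -/
theorem arch_of_liesOver [CharZero L] (halg : ∀ x : L, IsAlgebraic ℤ x) {ℓ : ℕ} (hℓ : ℓ.Prime)
    (hA : A.LiesOverPrime ℓ) : Arch A := by
  intro δ c hδ hc
  obtain ⟨e, he⟩ := arch_pow_div_mem A hℓ hA hc (halg c)
  obtain ⟨m, hm⟩ := arch_pow_div_prime A hℓ hA hδ (halg δ)
  refine ⟨m * e, ?_⟩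
  have hℓ0 : (ℓ : L) ≠ 0 := Nat.cast_ne_zero.2 hℓ.ne_zero
  have h1 : δ ^ (m * e) / c = (δ ^ m / (ℓ : L)) ^ e * ((ℓ : L) ^ e / c) := by
    rw [pow_mul, div_pow]
    field_simp
  rw [h1]
  exact A.mul_mem _ _ (pow_mem hm e) he

/-- the case of `ℚ̄` -/
theorem arch_Qbar (A : ValuationSubring (AlgebraicClosure ℚ)) {ℓ : ℕ} (hℓ : ℓ.Prime)
    (hA : A.LiesOverPrime ℓ) : Arch A := by
  refine arch_of_liesOver A (fun x => ?_) hℓ hA
  have h0 : IsAlgebraic ℚ x := (AlgebraicClosure.isAlgebraic ℚ).isAlgebraic x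
  exact (IsFractionRing.isAlgebraic_iff ℤ ℚ (AlgebraicClosure ℚ)).2 h0

end Fermat.Agent.ES.LR
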