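/-
ES-LR (Lemma R, part (a)) for the modular function fields (helper15):
`stmtLRaAll : Fermat.Agent.ES.M.StmtLRaAll`.

`x ∈ F_N` with poles only at cusps (regular wherever `j` is) and Gauss norm `≤ 1` (fraction form)
has an `A`-integral `q`-expansion.  Proof:
1. `x` is integral over `ℚ̄[j]` (places of `F_N` over the affine `j`-line = primes of the integral
   closure of `ℚ̄[j]`, a Dedekind domain: `Fermat.Agent.S24.placeOfPrime`);
2. for a common denominator `c ∈ A` of the coefficients of an integrality equation, `c · x` is a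
   root of a monic polynomial over `A((q))` (`Polynomial.scaleRoots`; `j` has integer coefficients);
3. `A((q))` is integrally closed in its fraction field: `c · x ∈ A((q))` (`kronInt_of_monic`);
4. Gauss: bounded denominators + Gauss norm `≤ 1` ⟹ integral (`kronInt_of_bounded`).
No hypothesis on `N` and `ℓ` is used.
-/
import Fermat.Agent.ES.LR.Arch
import Fermat.Agent.ES.M.Plan
import Fermat.Agent.ES.HModular
import Fermat.Agent.S24.Places
import Fermat.Agent.S24.Transc

set_option autoImplicit false
set_option linter.style.haveILetI false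

noncomputable section

namespace Fermat.Agent.ES.LR

open Fermat.Agent.ES Fermat.Agent.ES.M Fermat.Agent.S24 ModularCurve AlgebraicCurve Polynomial
  IsDedekindDomain

/-! ### Step 1: poles only at cusps ⟹ integral over `ℚ̄[j]` -/

theorem lr_isIntegral (N : ℕ) [NeZero N] (x : FF N) (hx : PolesAtCusps N x) :
    letI := polyAlgebra (K := Kb) (jF N)
    IsIntegral Kb[X] x := by
  letI := polyAlgebra (K := Kb) (jF N)
  haveI := Fermat.Agent.ES.H.finiteDimensional_adjoin_jF N
  obtain ⟨hDed, hFrac, -⟩ := intClosure_facts (K := Kb) (jF N) (transcendental_jF N)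
  have hj0 : jF N ≠ 0 := fun h => transcendental_jF N (h ▸ isAlgebraic_zero)
  have hall : ∀ w : HeightOneSpectrum (intClosure (K := Kb) (jF N)),
      w.valuation (FF N) x ≤ 1 := by
    intro w
    set P : Place Kb (FF N) := placeOfPrime (PlacesAux.hK (K := Kb) (jF N)) w with hP
    have hjmem : jF N ∈ P.toValuationSubring := by
      rw [hP, placeOfPrime_toValuationSubring, Valuation.mem_valuationSubring_iff]
      have h1 := w.valuation_le_one (K := FF N)
        (algebraMap Kb[X] (intClosure (K := Kb) (jF N)) X)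
      have h2 : algebraMap (intClosure (K := Kb) (jF N)) (FF N)
          (algebraMap Kb[X] (intClosure (K := Kb) (jF N)) X) = jF N :=
        PlacesAux.algebraMap_X (K := Kb) (jF N)
      exact le_of_eq_of_le (congrArg (w.valuation (FF N)) h2).symm h1
    have hj : 0 ≤ P.ord (jF N) := (PlaceAux.ord_nonneg_iff P hj0).2 hjmem
    have hxmem := PlaceAux.mem_of_ord_nonneg P (hx P hj)
    rwa [hP, placeOfPrime_toValuationSubring, Valuation.mem_valuationSubring_iff] at hxmem
  obtain ⟨r, hr⟩ := HeightOneSpectrum.mem_integers_of_valuation_le_one (FF N) x hall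
  rw [← hr]
  exact r.2

/-! ### Step 2: scaling -/

variable {L : Type*} [Field L] {A : ValuationSubring L}

/-- a common denominator in `A` -/
theorem exists_common_denom (S : Finset L) :
    ∃ c : L, c ≠ 0 ∧ c ∈ A ∧ ∀ a ∈ S, c * a ∈ A := by
  classical
  induction S using Finset.induction_on with
  | empty => exact ⟨1, one_ne_zero, A.one_mem, fun a ha => absurd ha (Finset.notMem_empty a)⟩
  | insert a S _ ih =>
    obtain ⟨c, hc0, hcA, hc⟩ := ih
    by_cases ha : a ∈ A
    · refine ⟨c, hc0, hcA, fun b hb => ?_⟩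
      rcases Finset.mem_insert.1 hb with rfl | hb
      · exact A.mul_mem _ _ hcA ha
      · exact hc b hb
    · have ha0 : a ≠ 0 := fun h => ha (h ▸ A.zero_mem)
      have hinv : a⁻¹ ∈ A := (A.mem_or_inv_mem a).resolve_left ha
      refine ⟨c * a⁻¹, mul_ne_zero hc0 (inv_ne_zero ha0), A.mul_mem _ _ hcA hinv, fun b hb => ?_⟩
      rcases Finset.mem_insert.1 hb with rfl | hb
      · rw [mul_assoc, inv_mul_cancel₀ ha0, mul_one]
        exact hcA
      · rw [mul_assoc, mul_comm a⁻¹ b, ← mul_assoc]
        exact A.mul_mem _ _ (hc b hb) hinv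

/-- `c · f(J)` is integral if `J` is and `c` clears the denominators of `f` -/
theorem kronInt_C_mul_aeval {J : LaurentSeries L} (hJ : KronInt A J) (f : L[X]) {c : L}
    (hc : ∀ k, c * f.coeff k ∈ A) :
    KronInt A (HahnSeries.C c * Polynomial.aeval J f) := by
  rw [← mem_intSub, Polynomial.aeval_eq_sum_range, Finset.mul_sum]
  refine Subring.sum_mem _ fun k _ => ?_
  rw [Algebra.smul_def, ← mul_assoc, LaurentSeries.algebraMap_apply, ← map_mul]
  exact Subring.mul_mem _ (mem_intSub.2 (kronInt_C (hc k)))
    (Subring.pow_mem _ (mem_intSub.2 hJ) _)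

/-- a root of a monic polynomial over `L[J]`, `J` integral, which is a fraction of integral
series, has bounded denominators -/
theorem exists_kronInt_C_mul (hA : Arch A) {J : LaurentSeries L} (hJ : KronInt A J)
    {z Y₁ Y₂ : LaurentSeries L} (hY₁ : KronInt A Y₁) (hY₂ : KronInt A Y₂) (hY₂0 : Y₂ ≠ 0)
    (hfrac : z * Y₂ = Y₁) (p : L[X][X]) (hp : p.Monic)
    (hz : Polynomial.eval₂ (Polynomial.aeval J).toRingHom z p = 0) :
    ∃ c : L, c ≠ 0 ∧ KronInt A (HahnSeries.C c * z) := by
  classical
  obtain ⟨c, hc0, hcA, hc⟩ := exists_common_denom (A := A)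
    (p.support.biUnion fun i => (p.coeff i).coeffs)
  refine ⟨c, hc0, ?_⟩
  have hcoef : ∀ i k, c * (p.coeff i).coeff k ∈ A := by
    intro i k
    by_cases h0 : (p.coeff i).coeff k = 0
    · rw [h0, mul_zero]
      exact A.zero_mem
    · apply hc
      rw [Finset.mem_biUnion]
      refine ⟨i, ?_, Polynomial.coeff_mem_coeffs h0⟩
      rw [Polynomial.mem_support_iff]
      intro h
      rw [h, Polynomial.coeff_zero] at h0
      exact h0 rfl
  set φ : L[X] →+* LaurentSeries L := (Polynomial.aeval J).toRingHom with hφ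
  set P : (LaurentSeries L)[X] := p.map φ with hP
  have hPmonic : P.Monic := hp.map φ
  have hPz : P.eval z = 0 := by
    rw [hP, Polynomial.eval_map]
    exact hz
  set Q : (LaurentSeries L)[X] := Polynomial.scaleRoots P (HahnSeries.C c) with hQ
  have hQmonic : Q.Monic := (Polynomial.monic_scaleRoots_iff _).2 hPmonic
  have hQz : Q.eval (HahnSeries.C c * z) = 0 := by
    have h1 := Polynomial.scaleRoots_eval₂_eq_zero (RingHom.id (LaurentSeries L))
      (p := P) (r := z) (s := HahnSeries.C c) (by rwa [Polynomial.eval₂_id])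
    rwa [Polynomial.eval₂_id, RingHom.id_apply] at h1
  have hCc : KronInt A (HahnSeries.C c : LaurentSeries L) := kronInt_C hcA
  have hQc : ∀ n, KronInt A (Q.coeff n) := by
    intro n
    rw [hQ, Polynomial.coeff_scaleRoots]
    rcases lt_trichotomy n P.natDegree with h | h | h
    · have h1 : P.natDegree - n = (P.natDegree - n - 1) + 1 := by omega
      have h2 : P.coeff n * HahnSeries.C c ^ (P.natDegree - n) =
          (HahnSeries.C c * P.coeff n) * HahnSeries.C c ^ (P.natDegree - n - 1) := by
        conv_lhs => rw [h1, pow_succ]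
        ring
      rw [h2]
      refine KronInt.mul ?_ (hCc.pow _)
      rw [hP, Polynomial.coeff_map]
      exact kronInt_C_mul_aeval hJ (p.coeff n) (hcoef n)
    · rw [h, Nat.sub_self, pow_zero, mul_one, Polynomial.coeff_natDegree, hPmonic.leadingCoeff]
      exact KronInt.one
    · rw [Polynomial.coeff_eq_zero_of_natDegree_lt h, zero_mul]
      intro m
      rw [HahnSeries.coeff_zero]
      exact A.zero_mem
  refine kronInt_of_monic hA (Y₁ := HahnSeries.C c * Y₁) (hCc.mul hY₁) hY₂ hY₂0 ?_ Q hQmonic hQc hQz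
  rw [mul_assoc, hfrac]

/-! ### Assembly -/

/-- `j(q)` has integer coefficients -/
theorem kronInt_jBar (A : ValuationSubring Kb) : KronInt A jBar := by
  have h : jBar = coeffMap (Int.castRingHom Kb) (jqModC ℤ) := by
    rw [jBar, coeffEmb, ← jqModC_rat, coeffMap_jqModC, coeffMap_jqModC]
  intro n
  rw [h, coeffMap_coeff]
  exact arch_intCast_mem A _

/-- **Lemma R (a)** for a rank one valuation subring of `ℚ̄` -/
theorem stmtLRa_of_arch (N : ℕ) [NeZero N] (A : ValuationSubring Kb) (hA : Arch A) :
    StmtLRa N A := by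
  intro x hx hG
  obtain ⟨w, Y₁, Y₂, -, -, hY₂, hfrac, -⟩ := hG
  letI := polyAlgebra (K := Kb) (jF N)
  obtain ⟨p, hp, hpz⟩ := lr_isIntegral N x hx
  have hY₂0 : kronIncl A Y₂ ≠ 0 := by
    intro h0
    apply hY₂
    have h1 : Y₂ = 0 := kronIncl_injective (A := A) (h0.trans (map_zero _).symm)
    rw [h1, map_zero]
  have hcomp : (modularFunctionFieldBar N).val.toRingHom.comp (algebraMap Kb[X] (FF N)) =
      (Polynomial.aeval jBar).toRingHom := by
    have h1 : (Polynomial.aeval (R := Kb) jBar) =
        (modularFunctionFieldBar N).val.comp (Polynomial.aeval (jF N)) :=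
      Polynomial.aeval_algHom (modularFunctionFieldBar N).val (jF N)
    rw [h1]
    rfl
  have hz : Polynomial.eval₂ (Polynomial.aeval jBar).toRingHom (x : LaurentSeries Kb) p = 0 := by
    have h1 := Polynomial.hom_eval₂ p (algebraMap Kb[X] (FF N))
      (modularFunctionFieldBar N).val.toRingHom x
    rw [hpz, map_zero, hcomp] at h1
    exact h1.symm
  obtain ⟨c, hc0, hcx⟩ := exists_kronInt_C_mul hA (kronInt_jBar A) (kronInt_kronIncl Y₁)
    (kronInt_kronIncl Y₂) hY₂0 hfrac p hp hz
  exact kronInt_of_bounded hA hc0 hcx (kronInt_kronIncl Y₁) ((kronPrim_kronIncl_iff Y₂).2 hY₂)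
    hfrac

/-- **Lemma R (a)**, all levels and all primes (no good-reduction hypothesis is needed) -/
theorem stmtLRa (N : ℕ) [NeZero N] (ℓ : ℕ) (hℓ : ℓ.Prime) (A : ValuationSubring Kb)
    (hA : A.LiesOverPrime ℓ) : StmtLRa N A :=
  stmtLRa_of_arch N A (arch_Qbar A hℓ hA)

/-- the input `StmtLRaAll` of the route-2 glue -/
theorem stmtLRaAll : StmtLRaAll :=
  fun N _ ℓ hℓ _ A hA => stmtLRa N ℓ hℓ A hA

end Fermat.Agent.ES.LR
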